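import Fermat.Agent.S14.KummerLocal.Defs

set_option autoImplicit false
set_option linter.unusedSectionVars false
set_option linter.unusedVariables false

/-!
# CFT / Global / GN2: local index bounds

`F` is any number field containing a primitive `p`-th root of unity `ζ`, `v` any finite place,
`d = dz ζ v = ord_v (ζ - 1)`.

* `locPow_all`: a `p`-th power modulo `v ^ (p d + 1)` is a `p`-th power modulo every power of `v`
  (Hensel, by a Newton step inside `F`).
* `index_le`: `F^× / (local p-th powers at v)` has at most `p ^ 2 * Nv ^ (ord_v p)` classes.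
* `prod_absNorm_pow_above`: `∏_{v ∣ q} Nv ^ (ord_v q) = q ^ [F : ℚ]`.
-/

namespace Fermat.Agent.CFT.Global

open IsDedekindDomain NumberField Fermat.Agent.S14 Polynomial

/-- `(1 + δ) ^ p = 1 + p δ + p δ² s + δ ^ p`. -/
theorem exists_one_add_pow_prime_eq {R : Type*} [CommRing R] {p : ℕ} (hp : p.Prime) (δ : R) :
    ∃ s : R, (1 + δ) ^ p = 1 + p * δ + p * δ ^ 2 * s + δ ^ p := by
  obtain ⟨r, hr⟩ := exists_add_pow_prime_eq hp (1 : ℤ[X]) X
  have h0 : r.coeff 0 = 1 := by
    have h1 := congrArg (fun q : ℤ[X] => q.coeff 1) hr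
    simp only [one_pow, mul_one] at h1
    have h2 : ((1 + X : ℤ[X]) ^ p).coeff 1 = p := by
      rw [add_comm, coeff_X_add_one_pow]; simp
    have h3 : ((1 : ℤ[X]) + X ^ p + (p : ℤ[X]) * X * r).coeff 1 = p * r.coeff 0 := by
      have hp1 : p ≠ 1 := hp.ne_one
      rw [coeff_add, coeff_add, coeff_one, coeff_X_pow, mul_assoc, ← C_eq_natCast, coeff_C_mul,
        coeff_X_mul]
      simp [hp1.symm]
    rw [h2, h3] at h1
    have hp0 : (p : ℤ) ≠ 0 := by exact_mod_cast hp.ne_zero
    have : (p : ℤ) * r.coeff 0 = p * 1 := by rw [← h1, mul_one]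
    exact mul_left_cancel₀ hp0 this
  have hr' : r = r.divX * X + 1 := by
    conv_lhs => rw [← divX_mul_X_add r, h0]
    simp
  refine ⟨aeval δ r.divX, ?_⟩
  have h4 := congrArg (aeval δ) hr
  rw [hr'] at h4
  simp only [map_pow, map_add, map_one, aeval_X, map_mul, map_natCast, one_pow, mul_one] at h4
  rw [h4]
  ring

variable {p : ℕ} [Fact p.Prime] {F : Type*} [Field F] [NumberField F] {ζ : F}

/-- `ord_v p = (p - 1) ord_v (ζ - 1)`. -/
theorem ord_natCast_prime (hζ : IsPrimitiveRoot ζ p) (v : Pl F) :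
    ord v (p : F) = ((p - 1 : ℕ) : ℤ) * dz ζ v := by
  have hp : p.Prime := Fact.out
  obtain ⟨n, rfl⟩ : ∃ n, p = n + 1 := ⟨p - 1, by have := hp.pos; omega⟩
  have h := hζ.prod_one_sub_pow_eq_order
  have hcast : ((n + 1 : ℕ) : F) = (n : F) + 1 := by push_cast; ring
  rw [hcast, ← h, ord_prod]
  · rw [Finset.sum_congr rfl (g := fun _ => (dz ζ v : ℤ))]
    · simp
    · intro k hk
      have hk' : k < n := Finset.mem_range.mp hk
      have := ord_zeta_pow_sub_zeta_pow hζ v (i := 0) (j := k + 1) (by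
        intro hmod
        have := Nat.ModEq.eq_of_lt_of_lt hmod (by omega) (by omega)
        omega)
      rw [pow_zero] at this
      rw [this, dz_eq hζ]
  · intro k hk
    have hk' : k < n := Finset.mem_range.mp hk
    intro h0
    have h1 : ζ ^ (k + 1) = 1 := (sub_eq_zero.mp h0).symm
    have := hζ.dvd_of_pow_eq_one _ h1
    have := Nat.le_of_dvd (by omega) this
    omega

/-- the valuation of an element of the valuation ring, evaluated by a ring-theoretic identity. -/
theorem newton_step (hζ : IsPrimitiveRoot ζ p) (v : Pl F) {ε : F} {m : ℕ}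
    (hm : p * dz ζ v + 1 ≤ m) (hε : v.valuation F ε ≤ WithZero.exp (-(m : ℤ))) :
    ∃ c : F, c ≠ 0 ∧ v.valuation F ((1 + ε) / c ^ p - 1) ≤ WithZero.exp (-((m + 1 : ℕ) : ℤ)) := by
  have hp : p.Prime := Fact.out
  have hpF : (p : F) ≠ 0 := by exact_mod_cast hp.ne_zero
  set d := dz ζ v with hd
  set e : ℤ := ((p - 1 : ℕ) : ℤ) * d with he
  have hvp : v.valuation F (p : F) = WithZero.exp (-e) := by
    rw [valuation_eq_exp_neg_ord v hpF, ord_natCast_prime hζ v]
  set δ : F := ε / p with hδ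
  have hvδ : v.valuation F δ ≤ WithZero.exp (e - m) := by
    rw [hδ, map_div₀, hvp, div_le_iff₀ (by simp), ← WithZero.exp_add]
    convert hε using 2
    ring
  have hp1 : ((p - 1 : ℕ) : ℤ) = (p : ℤ) - 1 := by
    have := hp.pos
    push_cast [Nat.cast_sub this]; ring
  have hem : e + 1 ≤ m := by
    have h1 : ((p * d + 1 : ℕ) : ℤ) ≤ m := by exact_mod_cast hm
    push_cast at h1
    rw [he, hp1]
    nlinarith [Int.natCast_nonneg d]
  have hvδ1 : v.valuation F δ < 1 := by
    refine hvδ.trans_lt ?_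
    rw [← WithZero.exp_zero, WithZero.exp_lt_exp]; omega
  -- work in the valuation ring
  let O := (v.valuation F).valuationSubring
  obtain ⟨s, hs⟩ := exists_one_add_pow_prime_eq hp (⟨δ, hvδ1.le⟩ : O)
  have hs' : (1 + δ) ^ p = 1 + p * δ + p * δ ^ 2 * (s : F) + δ ^ p := by
    have := congrArg (fun x : O => (x : F)) hs
    simpa using this
  have hvs : v.valuation F (s : F) ≤ 1 := s.2
  have hv1δ : v.valuation F (1 + δ) = 1 := by
    have := Valuation.map_add_eq_of_lt_left (v.valuation F) (x := 1) (y := δ) (by simpa using hvδ1)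
    simpa using this
  have h1δ : (1 + δ) ≠ 0 := by
    intro h; rw [h] at hv1δ; simp at hv1δ
  refine ⟨1 + δ, h1δ, ?_⟩
  have hpδ : (p : F) * δ = ε := by rw [hδ]; field_simp
  have key : (1 + ε) / (1 + δ) ^ p - 1 = -(p * δ ^ 2 * (s : F) + δ ^ p) / (1 + δ) ^ p := by
    rw [div_sub_one (pow_ne_zero _ h1δ), hs', hpδ]
    ring
  rw [key, map_div₀, map_pow, hv1δ, one_pow, div_one, Valuation.map_neg]
  refine (Valuation.map_add _ _ _).trans (max_le ?_ ?_)
  · rw [map_mul, map_mul, map_pow, hvp]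
    calc WithZero.exp (-e) * v.valuation F δ ^ 2 * v.valuation F (s : F)
        ≤ WithZero.exp (-e) * (WithZero.exp (e - m)) ^ 2 * 1 := by gcongr
      _ = WithZero.exp (-e + 2 * (e - m)) := by
          rw [mul_one, ← WithZero.exp_nsmul, ← WithZero.exp_add]; simp
      _ ≤ _ := by rw [WithZero.exp_le_exp]; push_cast; omega
  · rw [map_pow]
    calc v.valuation F δ ^ p ≤ (WithZero.exp (e - m)) ^ p := by gcongr
      _ = WithZero.exp (p * (e - m)) := by rw [← WithZero.exp_nsmul]; simp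
      _ ≤ _ := by
          rw [WithZero.exp_le_exp]
          have h1 : ((p * d + 1 : ℕ) : ℤ) ≤ m := by exact_mod_cast hm
          have h2 : (2 : ℤ) ≤ p := by exact_mod_cast hp.two_le
          push_cast at h1 ⊢
          rw [he, hp1]
          nlinarith [Int.natCast_nonneg d]

theorem locPow_succ (hζ : IsPrimitiveRoot ζ p) (v : Pl F) {x : F} {m : ℕ}
    (hm : p * dz ζ v + 1 ≤ m) (h : LocPow p v m x) : LocPow p v (m + 1) x := by
  obtain ⟨c, hc0, hc⟩ := h
  obtain ⟨c', hc'0, hc'⟩ := newton_step hζ v hm hc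
  refine ⟨c * c', mul_ne_zero hc0 hc'0, ?_⟩
  have : x / (c * c') ^ p = (1 + (x / c ^ p - 1)) / c' ^ p := by
    rw [mul_pow]; field_simp; ring
  rw [this]
  exact hc'

/-- **Hensel** (inside `F`): a `p`-th power modulo `v ^ (p d + 1)` is a `p`-th power modulo every
power of `v`. -/
theorem locPow_all (hζ : IsPrimitiveRoot ζ p) (v : Pl F) {x : F}
    (h : LocPow p v (p * dz ζ v + 1) x) (n : ℕ) : LocPow p v n x := by
  have key : ∀ k : ℕ, LocPow p v (p * dz ζ v + 1 + k) x := by
    intro k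
    induction k with
    | zero => exact h
    | succ k ih => exact locPow_succ hζ v (Nat.le_add_right _ _) ih
  exact (key n).mono (by omega)

/-- `u ^ p ≡ 1 mod v ^ (p d + 1)` forces `u ≡ ζ ^ i mod v ^ (d + 1)`. -/
theorem exists_sub_zeta_pow_mem (hζ : IsPrimitiveRoot ζ p) (v : Pl F) (u : 𝓞 F)
    (hu : u ^ p - 1 ∈ v.asIdeal ^ (p * dz ζ v + 1)) :
    ∃ i, i < p ∧ u - hζ.toInteger ^ i ∈ v.asIdeal ^ (dz ζ v + 1) := by
  have hp : p.Prime := Fact.out
  set z := hζ.toInteger with hz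
  have hzp : IsPrimitiveRoot z p := hζ.toInteger_isPrimitiveRoot
  set d := dz ζ v with hd
  by_contra hcon
  push Not at hcon
  have hprod : u ^ p - 1 = ∏ i ∈ Finset.range p, (u - z ^ i) := by
    have h := X_pow_sub_C_eq_prod hzp hp.pos (one_pow p)
    have h' := congrArg (Polynomial.eval u) h
    simpa [eval_prod] using h'
  have hne : ∀ i ∈ Finset.range p, u - z ^ i ≠ 0 := by
    intro i hi h0
    exact hcon i (Finset.mem_range.mp hi) (h0 ▸ zero_mem _)
  have hne' : ∀ i ∈ Finset.range p, ((u - z ^ i : 𝓞 F) : F) ≠ 0 := by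
    intro i hi
    have := hne i hi
    exact_mod_cast this
  have hle : ∀ i ∈ Finset.range p, ord v ((u - z ^ i : 𝓞 F) : F) ≤ d := by
    intro i hi
    have h1 := (le_ord_iff_mem_pow v (hne i hi) (d + 1)).not.mpr (hcon i (Finset.mem_range.mp hi))
    simp only [Nat.cast_add, Nat.cast_one] at h1
    omega
  have hne0 : u ^ p - 1 ≠ 0 := by
    rw [hprod]; exact Finset.prod_ne_zero_iff.mpr hne
  have h1 := (le_ord_iff_mem_pow v hne0 (p * d + 1)).mpr hu
  have h2 : ord v ((u ^ p - 1 : 𝓞 F) : F) = ∑ i ∈ Finset.range p, ord v ((u - z ^ i : 𝓞 F) : F) := by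
    rw [hprod, ← ord_prod v _ _ hne']
    congr 1
    push_cast
    rfl
  have h3 : ∑ i ∈ Finset.range p, ord v ((u - z ^ i : 𝓞 F) : F) ≤ ∑ _i ∈ Finset.range p, (d : ℤ) :=
    Finset.sum_le_sum hle
  rw [Finset.sum_const, Finset.card_range] at h3
  rw [h2] at h1
  simp only [Nat.cast_add, Nat.cast_one, Nat.cast_mul] at h1
  simp only [nsmul_eq_mul] at h3
  omega

lemma card_quot_pow (v : Pl F) (n : ℕ) :
    Nat.card (𝓞 F ⧸ v.asIdeal ^ n) = Ideal.absNorm v.asIdeal ^ n := by
  rw [← map_pow, Ideal.absNorm_apply, Submodule.cardQuot_apply]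

lemma finite_quot_pow (v : Pl F) (n : ℕ) : Finite (𝓞 F ⧸ v.asIdeal ^ n) :=
  Ideal.finiteQuotientOfFreeOfNeBot _ (pow_ne_zero n v.ne_bot)

lemma absNorm_pos (v : Pl F) : 0 < Ideal.absNorm v.asIdeal := by
  rw [Nat.pos_iff_ne_zero, Ne, Ideal.absNorm_eq_zero_iff]
  exact v.ne_bot

/-- the kernel of `O / v ^ (a + b) → O / v ^ a` has `Nv ^ b` elements. -/
lemma card_ker_factor (v : Pl F) (a b : ℕ) :
    Nat.card (Ideal.Quotient.factor (Ideal.pow_le_pow_right (Nat.le_add_right a b) :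
      v.asIdeal ^ (a + b) ≤ v.asIdeal ^ a)).toAddMonoidHom.ker = Ideal.absNorm v.asIdeal ^ b := by
  set f := (Ideal.Quotient.factor (Ideal.pow_le_pow_right (Nat.le_add_right a b) :
      v.asIdeal ^ (a + b) ≤ v.asIdeal ^ a)).toAddMonoidHom with hf
  have hsurj : Function.Surjective f := Ideal.Quotient.factor_surjective
    (Ideal.pow_le_pow_right (Nat.le_add_right a b))
  have h1 := f.ker.card_mul_index
  rw [AddSubgroup.index_ker, AddMonoidHom.range_eq_top.mpr hsurj, card_quot_pow,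
    Nat.card_congr (AddSubgroup.topEquiv (G := 𝓞 F ⧸ v.asIdeal ^ a)).toEquiv, card_quot_pow] at h1
  have h2 : Ideal.absNorm v.asIdeal ^ a * Nat.card f.ker
      = Ideal.absNorm v.asIdeal ^ a * Ideal.absNorm v.asIdeal ^ b := by
    rw [mul_comm, h1]; exact pow_add _ _ _
  exact Nat.eq_of_mul_eq_mul_left (pow_pos (absNorm_pos v) a) h2

/-- In a finite commutative group the index of the `n`-th powers is the number of `n`-torsion
elements. -/
lemma index_range_powMonoidHom {A : Type*} [CommGroup A] [Finite A] (n : ℕ) :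
    (powMonoidHom n : A →* A).range.index = Nat.card (powMonoidHom n : A →* A).ker := by
  have h1 := (powMonoidHom n : A →* A).ker.card_mul_index
  have h2 := (powMonoidHom n : A →* A).range.card_mul_index
  rw [Subgroup.index_ker] at h1
  rw [← h1, mul_comm] at h2
  exact Nat.eq_of_mul_eq_mul_right Nat.card_pos h2

/-- the number of `p`-torsion elements of `(O / v ^ (p d + 1))ˣ`. -/
theorem card_torsion_le (hζ : IsPrimitiveRoot ζ p) (v : Pl F) :
    Nat.card (powMonoidHom p : (𝓞 F ⧸ v.asIdeal ^ (p * dz ζ v + 1))ˣ →* _).ker ≤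
      p * Ideal.absNorm v.asIdeal ^ ((p - 1) * dz ζ v) := by
  have hp : p.Prime := Fact.out
  set d := dz ζ v with hd
  have hM : p * d + 1 = (d + 1) + (p - 1) * d := by
    obtain ⟨n, hn⟩ : ∃ n, p = n + 1 := ⟨p - 1, by have := hp.pos; omega⟩
    rw [hn]; simp; ring
  rw [hM]
  set f := (Ideal.Quotient.factor (Ideal.pow_le_pow_right (Nat.le_add_right (d + 1) ((p - 1) * d)) :
      v.asIdeal ^ ((d + 1) + (p - 1) * d) ≤ v.asIdeal ^ (d + 1))).toAddMonoidHom with hf
  have hcard := card_ker_factor v (d + 1) ((p - 1) * d)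
  rw [← hf] at hcard
  have : Finite (𝓞 F ⧸ v.asIdeal ^ ((d + 1) + (p - 1) * d)) := finite_quot_pow v _
  have hex : ∀ a : (powMonoidHom p : (𝓞 F ⧸ v.asIdeal ^ ((d + 1) + (p - 1) * d))ˣ →* _).ker,
      ∃ i : Fin p, ((a : (𝓞 F ⧸ v.asIdeal ^ ((d + 1) + (p - 1) * d))ˣ) :
        𝓞 F ⧸ v.asIdeal ^ ((d + 1) + (p - 1) * d)) -
        Ideal.Quotient.mk _ (hζ.toInteger ^ (i : ℕ)) ∈ f.ker := by
    rintro ⟨a, ha⟩
    obtain ⟨u, hu⟩ := Ideal.Quotient.mk_surjective (a : 𝓞 F ⧸ v.asIdeal ^ ((d + 1) + (p - 1) * d))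
    have ha' : (a : 𝓞 F ⧸ v.asIdeal ^ ((d + 1) + (p - 1) * d)) ^ p = 1 := by
      have : a ^ p = 1 := ha
      have h2 := congrArg Units.val this
      simpa using h2
    have hmem : u ^ p - 1 ∈ v.asIdeal ^ (p * d + 1) := by
      rw [hM, ← Ideal.Quotient.eq_zero_iff_mem, map_sub, map_pow, hu, ha', map_one, sub_self]
    obtain ⟨i, hi, hi'⟩ := exists_sub_zeta_pow_mem hζ v u hmem
    refine ⟨⟨i, hi⟩, ?_⟩
    rw [AddMonoidHom.mem_ker, ← hu, ← map_sub]
    have h5 : f (Ideal.Quotient.mk _ (u - hζ.toInteger ^ i))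
        = Ideal.Quotient.mk (v.asIdeal ^ (d + 1)) (u - hζ.toInteger ^ i) := rfl
    rw [h5, Ideal.Quotient.eq_zero_iff_mem]
    exact hi'
  choose idx hidx using hex
  have hinj : Function.Injective (fun a : (powMonoidHom p :
      (𝓞 F ⧸ v.asIdeal ^ ((d + 1) + (p - 1) * d))ˣ →* _).ker =>
      ((idx a, ⟨_, hidx a⟩) : Fin p × f.ker)) := by
    intro a b hab
    simp only [Prod.mk.injEq, Subtype.mk.injEq] at hab
    obtain ⟨h1, h2⟩ := hab
    rw [h1] at h2
    have h3 := sub_left_injective h2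
    exact Subtype.ext (Units.ext h3)
  have := Nat.card_le_card_of_injective _ hinj
  rwa [Nat.card_prod, Nat.card_fin, hcard] at this

/-- units of `O / v ^ M`. -/
lemma isUnit_mk_pow_iff (v : Pl F) {M : ℕ} (hM : 1 ≤ M) (b : 𝓞 F) :
    IsUnit (Ideal.Quotient.mk (v.asIdeal ^ M) b) ↔ b ∉ v.asIdeal := by
  constructor
  · rintro ⟨t, ht⟩ hb
    obtain ⟨c, hc⟩ := Ideal.Quotient.mk_surjective ((t⁻¹ : (𝓞 F ⧸ v.asIdeal ^ M)ˣ) :
      𝓞 F ⧸ v.asIdeal ^ M)
    have h1 : Ideal.Quotient.mk (v.asIdeal ^ M) (b * c - 1) = 0 := by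
      rw [map_sub, map_mul, ← ht, hc, map_one, Units.mul_inv, sub_self]
    rw [Ideal.Quotient.eq_zero_iff_mem] at h1
    have h2 : b * c - 1 ∈ v.asIdeal := Ideal.pow_le_self (by omega) h1
    have h3 : (1 : 𝓞 F) ∈ v.asIdeal := by
      have := v.asIdeal.sub_mem (v.asIdeal.mul_mem_right c hb) h2
      simpa using this
    exact v.isPrime.ne_top ((Ideal.eq_top_iff_one _).mpr h3)
  · intro hb
    have := v.isMaximal
    obtain ⟨c, hc⟩ := Ideal.Quotient.exists_inv (I := v.asIdeal)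
      (a := Ideal.Quotient.mk v.asIdeal b) (by rwa [Ne, Ideal.Quotient.eq_zero_iff_mem])
    obtain ⟨c, rfl⟩ := Ideal.Quotient.mk_surjective c
    have h1 : 1 - b * c ∈ v.asIdeal := by
      rw [← Ideal.Quotient.eq_zero_iff_mem, map_sub, map_mul, hc, map_one, sub_self]
    have h2 : (1 - b * c) ^ M ∈ v.asIdeal ^ M := Ideal.pow_mem_pow h1 M
    have h3 : b * (c * ∑ i ∈ Finset.range M, (1 - b * c) ^ i) = 1 - (1 - b * c) ^ M := by
      have := mul_neg_geom_sum (1 - b * c) M
      rw [← this]; ring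
    refine IsUnit.of_mul_eq_one (Ideal.Quotient.mk _ (c * ∑ i ∈ Finset.range M, (1 - b * c) ^ i)) ?_
    rw [← map_mul, h3, map_sub, map_one, Ideal.Quotient.eq_zero_iff_mem.mpr h2, sub_zero]

lemma valuation_coe_eq_one_of_notMem (v : Pl F) {b : 𝓞 F} (hb : b ∉ v.asIdeal) :
    v.valuation F (b : F) = 1 := by
  have h1 := v.valuation_le_one (K := F) b
  have h2 := (v.valuation_lt_one_iff_mem (K := F) b).not.mpr hb
  exact le_antisymm h1 (not_lt.mp h2)

lemma valuation_coe_le_exp_of_mem_pow (v : Pl F) {a : 𝓞 F} {n : ℕ} (ha : a ∈ v.asIdeal ^ n) :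
    v.valuation F (a : F) ≤ WithZero.exp (-(n : ℤ)) := by
  rw [show ((a : 𝓞 F) : F) = algebraMap (𝓞 F) F a from rfl, v.valuation_of_algebraMap]
  exact (v.intValuation_le_pow_iff_mem a n).mpr ha

/-- **Local index bound**. -/
theorem index_le (hζ : IsPrimitiveRoot ζ p) (v : Pl F) :
    ∃ R : Finset F, R.card ≤ p ^ 2 * Ideal.absNorm v.asIdeal ^ (ord v (p : F)).toNat ∧
      (∀ r ∈ R, r ≠ 0) ∧ ∀ x : F, x ≠ 0 → ∃ r ∈ R, ∀ n, LocPow p v n (x / r) := by
  classical
  have hp : p.Prime := Fact.out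
  set d := dz ζ v with hd
  set M := p * d + 1 with hM
  have hM1 : 1 ≤ M := by omega
  have hfin : Finite (𝓞 F ⧸ v.asIdeal ^ M) := finite_quot_pow v M
  set H : Subgroup (𝓞 F ⧸ v.asIdeal ^ M)ˣ := (powMonoidHom p).range with hH
  have hidx : H.index ≤ p * Ideal.absNorm v.asIdeal ^ ((p - 1) * d) := by
    rw [hH, index_range_powMonoidHom]; exact card_torsion_le hζ v
  have : Fintype ((𝓞 F ⧸ v.asIdeal ^ M)ˣ ⧸ H) := Fintype.ofFinite _
  obtain ⟨π, hπ0, hπ⟩ := exists_ord_eq ({v} : Finset (Pl F)) (fun _ => 1)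
  have hπ1 : ord v π = 1 := hπ v (by simp)
  -- integral lifts of units
  have hlift : ∀ a : (𝓞 F ⧸ v.asIdeal ^ M)ˣ, ∃ b : 𝓞 F, b ∉ v.asIdeal ∧
      Ideal.Quotient.mk (v.asIdeal ^ M) b = a := by
    intro a
    obtain ⟨b, hb⟩ := Ideal.Quotient.mk_surjective (a : 𝓞 F ⧸ v.asIdeal ^ M)
    exact ⟨b, (isUnit_mk_pow_iff v hM1 b).mp (hb ▸ a.isUnit), hb⟩
  choose lift hlift1 hlift2 using hlift
  set rep : ((𝓞 F ⧸ v.asIdeal ^ M)ˣ ⧸ H) → 𝓞 F := fun c => lift (Quotient.out c) with hrep
  have hne : ∀ b : 𝓞 F, b ∉ v.asIdeal → (b : F) ≠ 0 := by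
    intro b hb h0
    have := valuation_coe_eq_one_of_notMem v hb
    rw [h0] at this; simp at this
  refine ⟨((Finset.range p) ×ˢ Finset.univ).image (fun ic => π ^ ic.1 * (rep ic.2 : F)), ?_, ?_, ?_⟩
  · refine Finset.card_image_le.trans ?_
    rw [Finset.card_product, Finset.card_range, Finset.card_univ, ← Nat.card_eq_fintype_card]
    have h1 : (ord v (p : F)).toNat = (p - 1) * d := by
      rw [ord_natCast_prime hζ v]
      have : (((p - 1 : ℕ) : ℤ) * (d : ℤ)) = (((p - 1) * d : ℕ) : ℤ) := by push_cast; ring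
      rw [this, Int.toNat_natCast]
    rw [h1, sq, mul_assoc]
    exact Nat.mul_le_mul_left p hidx
  · intro r hr
    obtain ⟨ic, -, rfl⟩ := Finset.mem_image.mp hr
    exact mul_ne_zero (pow_ne_zero _ hπ0) (hne _ (hlift1 _))
  · intro x hx
    set n : ℤ := ord v x with hn
    have hpz : (p : ℤ) ≠ 0 := by exact_mod_cast hp.ne_zero
    have hppos : (0 : ℤ) < p := by exact_mod_cast hp.pos
    set s : ℤ := n / p
    set i : ℤ := n % p
    have hi0 : 0 ≤ i := Int.emod_nonneg _ hpz
    have hip : i < p := Int.emod_lt_of_pos _ hppos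
    have hnsi : n = p * s + i := (Int.mul_ediv_add_emod n p).symm
    set u : F := x / π ^ n with hu
    have hu0 : u ≠ 0 := div_ne_zero hx (zpow_ne_zero _ hπ0)
    have hordu : ord v u = 0 := by
      rw [hu, ord_div v hx (zpow_ne_zero _ hπ0), ord_zpow, hπ1]; ring
    have hvu : v.valuation F u = 1 := by
      rw [valuation_eq_exp_neg_ord v hu0, hordu]; simp
    obtain ⟨b, hb⟩ := v.exists_valuation_sub_lt_of_integer (K := F) hvu.le
      (Units.mk0 (WithZero.exp (-(M : ℤ))) WithZero.exp_ne_zero)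
    rw [Units.val_mk0] at hb
    have hb1 : v.valuation F ((b : F) - u) < 1 := hb.trans (exp_neg_natCast_lt_one hM1)
    have hvb : v.valuation F (b : F) = 1 := by
      have := Valuation.map_add_eq_of_lt_left (v.valuation F) (x := u) (y := (b : F) - u)
        (by rw [hvu]; exact hb1)
      rw [hvu] at this
      simpa using this
    have hbv : b ∉ v.asIdeal := by
      intro h
      have := (v.valuation_lt_one_iff_mem (K := F) b).mpr h
      rw [hvb] at this
      exact lt_irrefl _ this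
    have hb0 : (b : F) ≠ 0 := hne b hbv
    obtain ⟨a, ha⟩ := (isUnit_mk_pow_iff v hM1 b).mpr hbv
    set c : (𝓞 F ⧸ v.asIdeal ^ M)ˣ ⧸ H := QuotientGroup.mk a with hc
    have hmem : (Quotient.out c)⁻¹ * a ∈ H := by
      rw [← QuotientGroup.eq]
      exact Quotient.out_eq c
    obtain ⟨t, ht⟩ := hmem
    have ht' : a = Quotient.out c * t ^ p := by
      have : t ^ p = (Quotient.out c)⁻¹ * a := ht
      rw [this]; group
    set τ := lift t with hτ
    have hτv : τ ∉ v.asIdeal := hlift1 t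
    have hcv : rep c ∉ v.asIdeal := hlift1 _
    have hcong : b - rep c * τ ^ p ∈ v.asIdeal ^ M := by
      rw [← Ideal.Quotient.eq_zero_iff_mem, map_sub, map_mul, map_pow, hrep, hτ]
      simp only [hlift2]
      rw [← ha, ht']
      simp
    have hτ0 : (τ : F) ≠ 0 := hne τ hτv
    have hc0 : (rep c : F) ≠ 0 := hne _ hcv
    refine ⟨π ^ i.toNat * (rep c : F), ?_, fun k => locPow_all hζ v ?_ k⟩
    · refine Finset.mem_image.mpr ⟨(i.toNat, c), ?_, rfl⟩
      simp only [Finset.mem_product, Finset.mem_range, Finset.mem_univ, and_true]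
      omega
    · refine ⟨π ^ s * (τ : F), mul_ne_zero (zpow_ne_zero _ hπ0) hτ0, ?_⟩
      have hxe : x / (π ^ i.toNat * (rep c : F)) / (π ^ s * (τ : F)) ^ p
          = (u / (b : F)) * ((b : F) / ((rep c : F) * (τ : F) ^ p)) := by
        have h1 : π ^ i.toNat = π ^ i := by
          rw [← zpow_natCast, Int.toNat_of_nonneg hi0]
        have h2 : (π ^ s) ^ p = π ^ (p * s) := by
          rw [← zpow_natCast, ← zpow_mul, mul_comm]
        have h3 : π ^ n = π ^ (p * s) * π ^ i := by rw [hnsi, zpow_add₀ hπ0]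
        rw [mul_pow, h1, h2, hu, h3]
        have ha : π ^ (p * s) ≠ 0 := zpow_ne_zero _ hπ0
        have hb : π ^ i ≠ 0 := zpow_ne_zero _ hπ0
        field_simp
      rw [hxe]
      refine valuation_mul_sub_one_le v ?_ ?_
      · have : u / (b : F) - 1 = -((b : F) - u) / (b : F) := by field_simp; ring
        rw [this, map_div₀, hvb, div_one, Valuation.map_neg]
        exact hb.le
      · have h1 : (b : F) / ((rep c : F) * (τ : F) ^ p) - 1
            = ((b - rep c * τ ^ p : 𝓞 F) : F) / ((rep c : F) * (τ : F) ^ p) := by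
          push_cast
          field_simp
        rw [h1, map_div₀, map_mul, map_pow, valuation_coe_eq_one_of_notMem v hcv,
          valuation_coe_eq_one_of_notMem v hτv, one_pow, mul_one, div_one]
        exact valuation_coe_le_exp_of_mem_pow v hcong

/-- `ord` of an integer as the multiplicity in the factorisation. -/
lemma ord_coe_eq_count (v : Pl F) {a : 𝓞 F} (ha : a ≠ 0) :
    ord v (a : F) = ((Associates.mk v.asIdeal).count
      (Associates.mk (Ideal.span {a} : Ideal (𝓞 F))).factors : ℤ) := by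
  rw [ord, show ((a : 𝓞 F) : F) = algebraMap (𝓞 F) F a from rfl, v.valuation_of_algebraMap,
    v.intValuation_if_neg ha, WithZero.log_exp]
  ring

/-- `∏_{v ∣ q} Nv ^ (ord_v q) = q ^ [F : ℚ]`. -/
theorem prod_absNorm_pow_above (q : ℕ) (hq : q ≠ 0) :
    ∏ v ∈ (finite_above (F := F) q hq).toFinset,
      Ideal.absNorm v.asIdeal ^ (ord v (q : F)).toNat = q ^ Module.finrank ℚ F := by
  classical
  have hq' : (q : 𝓞 F) ≠ 0 := by exact_mod_cast hq
  set I : Ideal (𝓞 F) := Ideal.span {(q : 𝓞 F)} with hI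
  have hI0 : I ≠ 0 := by
    rw [hI, Ne, Ideal.zero_eq_bot, Ideal.span_singleton_eq_bot]; exact hq'
  have hcnt : ∀ v : Pl F, (ord v (q : F)).toNat
      = (Associates.mk v.asIdeal).count (Associates.mk I).factors := by
    intro v
    have := ord_coe_eq_count v hq'
    rw [show (((q : 𝓞 F) : 𝓞 F) : F) = (q : F) by simp] at this
    rw [this, Int.toNat_natCast]
  have h1 := Ideal.finprod_heightOneSpectrum_factorization hI0
  rw [finprod_eq_prod_of_mulSupport_subset (s := (finite_above (F := F) q hq).toFinset)] at h1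
  · have h2 := congrArg Ideal.absNorm h1
    rw [map_prod, hI, Ideal.absNorm_span_natCast, RingOfIntegers.rank] at h2
    rw [← h2]
    refine Finset.prod_congr rfl fun v _ => ?_
    rw [HeightOneSpectrum.maxPowDividing, map_pow, hcnt v, hI]
  · intro v hv
    simp only [Set.Finite.coe_toFinset, Set.mem_ofPred_eq]
    by_contra hnot
    apply hv
    show v.maxPowDividing I = 1
    have h0 : ord v (q : F) = 0 := by
      have := Approx.ord_eq_zero_of_notMem v (a := (q : 𝓞 F)) hnot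
      simpa using this
    rw [HeightOneSpectrum.maxPowDividing, ← hcnt v, h0]
    simp

end Fermat.Agent.CFT.Global
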